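import Fermat.Agent.Mazur.Descent.Structure.Data
import Fermat.Agent.Mazur.Descent.GalFrame
import Fermat.Agent.Duality.Local.Kummer
import Fermat.Agent.TW.Places

/-!
# Characters on inertia given by elements

A cyclotomic cocycle on inertia is a Kummer character (Hilbert 90); its twist by an element of the
decomposition group differs from it by the character of a unit.
-/

set_option autoImplicit false

noncomputable section

namespace FermatAgent.Mazur.Descent

open FermatAgent.GalRep FermatAgent.Duality.Local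
open scoped Pointwise

local notation "Qb" => AlgebraicClosure ℚ
local notation "GQ" => AlgebraicClosure ℚ ≃ₐ[ℚ] AlgebraicClosure ℚ

attribute [local instance] FermatAgent.RT.isGalois_algClosureRat

/-- A class killed by `n` is given by a root of unity. -/
theorem exists_circleRoot {n : ℕ} (hn : 0 < n) {a : AddCircle (1 : ℚ)} (ha : n • a = 0) :
    ∃ ζ : Qb, ζ ^ n = 1 ∧ embC ζ = circleExp a := by
  have : NeZero n := ⟨hn.ne'⟩
  obtain ⟨ζ, hζ⟩ := HasEnoughRootsOfUnity.exists_primitiveRoot Qb n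
  have hpow : circleExp a ^ n = 1 := by rw [← circleExp_nsmul, ha, circleExp_zero]
  obtain ⟨j, -, hj⟩ := (hζ.map_of_injective embC.injective).eq_pow_of_pow_eq_one hpow
  exact ⟨ζ ^ j, by rw [← pow_mul, mul_comm, pow_mul, hζ.pow_eq_one, one_pow],
    by rw [map_pow]; exact hj⟩
theorem circleExp_sub (a b : AddCircle (1 : ℚ)) : circleExp (a - b) = circleExp a / circleExp b := by
  rw [eq_div_iff (circleExp_ne_zero b), ← circleExp_add, sub_add_cancel]

theorem embC_cycNat {l : ℕ} [Fact l.Prime] {r : ℕ} {ζ : Qb} {a : AddCircle (1 : ℚ)}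
    (hζ : ζ ^ l ^ r = 1) (ha : embC ζ = circleExp a) (σ : GQ) :
    embC (σ ζ) = circleExp (cycNat l r σ • a) := by
  rw [circleExp_nsmul, ← ha, ← map_pow]
  exact congrArg embC (cycChar_spec l σ r hζ)

/-- A character of inertia given by an element. -/
def HasWitness (A : ValuationSubring Qb) (f : A.inertiaSubgroupIn ℚ → AddCircle (1 : ℚ)) : Prop :=
  ∃ y : Qb, y ≠ 0 ∧ ∀ σ : A.inertiaSubgroupIn ℚ, circleExp (f σ) = embC ((σ : GQ) y / y)

variable {p l : ℕ} [hl : Fact l.Prime] {A Ap : ValuationSubring Qb}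

/-- **Hilbert 90**: cyclotomic cocycles on inertia are Kummer characters. -/
theorem hasWitness_of_cocycle (r : ℕ) (f : A.inertiaSubgroupIn ℚ → AddCircle (1 : ℚ))
    (hlev : ∃ L : IntermediateField ℚ Qb, FiniteDimensional ℚ L ∧
      ∀ σ s : A.inertiaSubgroupIn ℚ, (s : GQ) ∈ L.fixingSubgroup → f (σ * s) = f σ)
    (hkill : ∀ σ, l ^ r • f σ = 0)
    (hcoc : ∀ σ τ : A.inertiaSubgroupIn ℚ, f (σ * τ) = f σ + cycNat l r (σ : GQ) • f τ) :
    HasWitness A f := by
  choose u hu1 hu using fun σ => exists_circleRoot (pow_pos hl.out.pos r) (hkill σ)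
  obtain ⟨L, hL, hLf⟩ := hlev
  have hu0 : ∀ σ, u σ ≠ 0 := fun σ h => by
    have := hu1 σ
    rw [h, zero_pow (pow_ne_zero _ hl.out.ne_zero)] at this
    exact zero_ne_one this
  obtain ⟨t, ht0, ht⟩ := exists_eq_div_of_mulCocycle (D := A.inertiaSubgroupIn ℚ) u
    (isLev₁_iff_exists_field.2 ⟨L, hL, fun g s hs => embC.injective (by
      show embC (u (g * s)) = embC (u g)
      rw [hu, hu, hLf g s hs])⟩) hu0 (fun g h => embC.injective (by
      show embC (u (g * h)) = embC (u g * (g : GQ) (u h))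
      rw [map_mul, hu, hu, embC_cycNat (hu1 h) (hu h), ← circleExp_add, hcoc]))
  exact ⟨t, ht0, fun σ => by rw [← hu, ht]⟩

/-- Conjugation on inertia by an element of the decomposition group. -/
theorem conj_inv_mem_inertia {F : GQ} (hF : F ∈ A.decompositionSubgroup ℚ) {σ : GQ}
    (hσ : σ ∈ A.inertiaSubgroupIn ℚ) : F⁻¹ * σ * F ∈ A.inertiaSubgroupIn ℚ := by
  have h := TW.conj_mem_inertia (g := F⁻¹) hσ
  rwa [inv_inv, show F⁻¹ • A = A from inv_mem hF] at h

/-- **The twist**: the twist of a Kummer character differs from it by a unit character. -/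
theorem twist_sub_mem_UT {F : GQ} (hF : F ∈ A.decompositionSubgroup ℚ) {r : ℕ}
    {f : A.inertiaSubgroupIn ℚ → AddCircle (1 : ℚ)} (hw : HasWitness A f)
    (hkill : ∀ σ, l ^ r • f σ = 0) :
    (fun σ : A.inertiaSubgroupIn ℚ =>
      cycNat l r F • f ⟨F⁻¹ * σ * F, conj_inv_mem_inertia hF σ.2⟩ - f σ) ∈
      (galFrame Ap A p l).UT := by
  obtain ⟨y, hy, hyf⟩ := hw
  have : Algebra.IsAlgebraic ℚ Qb :=
    FermatAgent.RT.isGalois_algClosureRat.to_normal.toIsAlgebraic
  refine ⟨F y / y, ?_, fun σ => ?_⟩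
  · rw [map_div₀, FermatAgent.Local.decomposition_val_eq hF,
      div_self ((_root_.map_ne_zero _).2 hy)]
  · set σ' : A.inertiaSubgroupIn ℚ := ⟨F⁻¹ * σ * F, conj_inv_mem_inertia hF σ.2⟩
    obtain ⟨ζ, hζ, hζe⟩ := exists_circleRoot (pow_pos hl.out.pos r) (hkill σ')
    have hζy : ζ = (σ' : GQ) y / y := embC.injective (hζe.trans (hyf σ'))
    have hFσ : F ((σ' : GQ) y) = (σ : GQ) (F y) := by
      show (F * (F⁻¹ * (σ : GQ) * F)) y = ((σ : GQ) * F) y
      rw [← mul_assoc, ← mul_assoc, mul_inv_cancel, one_mul]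
    rw [circleExp_sub, ← embC_cycNat hζ hζe, hyf, hζy, ← map_div₀ embC, map_div₀ F, hFσ]
    congr 1
    have hFy : F y ≠ 0 := (_root_.map_ne_zero _).2 hy
    have hσy : (σ : GQ) y ≠ 0 := (_root_.map_ne_zero _).2 hy
    rw [map_div₀]
    field_simp

/-- The character of a root of unity is a unit character. -/
theorem root_mem_UT {r : ℕ} {a : AddCircle (1 : ℚ)} (ha : l ^ r • a = 0) :
    (fun σ : A.inertiaSubgroupIn ℚ => cycNat l r (σ : GQ) • a - a) ∈ (galFrame Ap A p l).UT := by
  obtain ⟨ζ, hζ, hζe⟩ := exists_circleRoot (pow_pos hl.out.pos r) ha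
  refine ⟨ζ, ?_, fun σ => ?_⟩
  · exact (pow_eq_one_iff.1 (show A.valuation ζ ^ l ^ r = 1 by
      rw [← map_pow, hζ, map_one])).resolve_right (pow_ne_zero r hl.out.ne_zero)
  · rw [circleExp_sub, ← embC_cycNat hζ hζe, ← hζe, ← map_div₀]

end FermatAgent.Mazur.Descent

end
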