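import Fermat.Agent.Mazur.Descent.Admissible.UnitRoot
import Fermat.Agent.Mazur.Descent.Admissible.Witness
import Fermat.Agent.Mazur.Descent.Assembly.Count
import Fermat.Agent.MW.MulDiv.JZero

/-!
# Admissibility at the place over `l`

The coboundaries of the component and the Kummer cocycles of rational points restrict to unit
characters on inertia.
-/

set_option autoImplicit false

noncomputable section

namespace FermatAgent.Mazur.Descent

open ModularCurve FermatAgent.GalRep FermatAgent.ModCurveTorsion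

local notation "Qb" => AlgebraicClosure ℚ
local notation "GQ" => AlgebraicClosure ℚ ≃ₐ[ℚ] AlgebraicClosure ℚ

variable {p l : ℕ} [NeZero p] [hp : Fact p.Prime] [hl : Fact l.Prime] {A Ap : ValuationSubring Qb}

/-- A family on inertia with values in the classes reducing to zero gives unit characters. -/
def UnitValued (D : LocalData p l A Ap) (r : ℕ) (g : GQ → eisPart p l (D.e r) r) : Prop :=
  ∀ φ : eisRedKer (p := p) (l := l) A (D.e r) r →+ AddCircle (1 : ℚ),
    ∀ h : ∀ σ : A.inertiaSubgroupIn ℚ, g σ ∈ eisRedKer (p := p) (l := l) A (D.e r) r,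
      (fun σ : A.inertiaSubgroupIn ℚ => φ ⟨g σ, h σ⟩) ∈ (galFrame Ap A p l).UT

omit [NeZero p] hp hl in
theorem mem_UT_of_eq {f f' : A.inertiaSubgroupIn ℚ → AddCircle (1 : ℚ)}
    (h : f ∈ (galFrame Ap A p l).UT) (e : ∀ σ, f' σ = f σ) : f' ∈ (galFrame Ap A p l).UT :=
  (funext e : f' = f) ▸ h

variable (D : LocalData p l A Ap)

omit hp in
theorem e_succ_iterate (r k : ℕ) {x : JZero p} (hx : l ^ r • x = 0) :
    hact p (D.e (r + k)) x = hact p (D.e r) x := by
  induction k with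
  | zero => rfl
  | succ k ih =>
    rw [← ih]
    refine D.e_succ (r + k) x ?_
    rw [add_comm, pow_add, mul_nsmul', hx, nsmul_zero]

/-- An operator on the classes reducing to zero. -/
def redOp (hlp : ¬ l ∣ p) (hA : A.LiesOverPrime l) (r : ℕ) (t : HeckeAlg) :
    eisRedKer (p := p) (l := l) A (D.e r) r →+ eisRedKer (p := p) (l := l) A (D.e r) r :=
  AddMonoidHom.mk' (fun z => ⟨eisRestrict t (z : eisPart p l (D.e r) r),
      hact_mem_redKer hl.out hlp hA t z.2⟩)
    fun _ _ => Subtype.ext (Subtype.ext (map_add (hact p t) _ _))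

variable {D}

theorem UnitValued.comp_redOp (hlp : ¬ l ∣ p) (hA : A.LiesOverPrime l) {r : ℕ}
    {g : GQ → eisPart p l (D.e r) r}
    (hg : ∀ σ : A.inertiaSubgroupIn ℚ, g σ ∈ eisRedKer (p := p) (l := l) A (D.e r) r)
    (h : UnitValued D r g) (t : HeckeAlg) {g' : GQ → eisPart p l (D.e r) r}
    (he : ∀ σ ∈ A.inertiaSubgroupIn ℚ, (g' σ : JZero p) = hact p t (g σ : JZero p)) :
    UnitValued D r g' := fun φ h' => by
  convert h (φ.comp (redOp D hlp hA r t)) hg using 1
  funext σ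
  exact congrArg φ (Subtype.ext (Subtype.ext (he σ σ.2)))

omit hp in
/-- **The twist identity.** -/
theorem unitValued_twist (hlp : ¬ l ∣ p) (hA : A.LiesOverPrime l) {r : ℕ} {U V : HeckeAlg}
    (hUV : ∀ x ∈ eisPart p l (D.e r) r, hact p V (hact p U x) = x ∧
      hact p (heckeGen ⟨l, Fact.out⟩) x = hact p U x + l • hact p V x)
    {c : GQ → eisPart p l (D.e r) r} (hc : ∀ σ τ, c (σ * τ) = c σ + σ • c τ)
    (hlev : ∃ L : IntermediateField ℚ Qb, FiniteDimensional ℚ L ∧ ∀ σ ∈ L.fixingSubgroup, c σ = 0)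
    (hIl : ∀ σ ∈ A.inertiaSubgroupIn ℚ, c σ ∈ eisRedKer (p := p) (l := l) A (D.e r) r)
    {g : GQ → eisPart p l (D.e r) r}
    (hg : ∀ σ ∈ A.inertiaSubgroupIn ℚ, (g σ : JZero p) =
      hact p U ((c σ : JZero p) + (σ • (c D.frob : JZero p) - c D.frob)) - c σ) :
    UnitValued D r g := fun φ h => by
  set F := D.frob
  have hFd := D.isFrob.mem_decompositionSubgroup
  set f : A.inertiaSubgroupIn ℚ → AddCircle (1 : ℚ) := fun σ => φ ⟨c σ, hIl σ σ.2⟩
  have hkill : ∀ σ, l ^ r • f σ = 0 := fun σ => by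
    rw [← map_nsmul, ← map_zero φ]
    exact congrArg φ (Subtype.ext (nsmul_eisPart _))
  have hact_eq : ∀ σ : A.inertiaSubgroupIn ℚ, ∀ z : eisPart p l (D.e r) r,
      z ∈ eisRedKer (p := p) (l := l) A (D.e r) r → (σ : GQ) • z = cycNat l r (σ : GQ) • z :=
    fun σ z hz => Subtype.ext (D.inertia_G0 r σ σ.2 _ z.2 hz)
  have hwit : HasWitness A f := by
    obtain ⟨L, hL, hLc⟩ := hlev
    refine hasWitness_of_cocycle r f ⟨L, hL, fun σ s hs => ?_⟩ hkill fun σ τ => ?_
    · refine congrArg φ (Subtype.ext ?_)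
      show c ((σ : GQ) * (s : GQ)) = c σ
      rw [hc, hLc _ hs, smul_zero, add_zero]
    · show φ ⟨c ((σ : GQ) * (τ : GQ)), _⟩ = _
      rw [← map_nsmul, ← map_add]
      refine congrArg φ (Subtype.ext ?_)
      show c ((σ : GQ) * (τ : GQ)) = c σ + cycNat l r (σ : GQ) • c τ
      rw [hc, hact_eq σ _ (hIl τ τ.2)]
  convert twist_sub_mem_UT (Ap := Ap) (p := p) hFd hwit hkill using 1
  funext σ
  set σ' : A.inertiaSubgroupIn ℚ := ⟨F⁻¹ * σ * F, conj_inv_mem_inertia hFd σ.2⟩
  show φ ⟨g σ, h σ⟩ = cycNat l r F • φ ⟨c σ', hIl σ' σ'.2⟩ - φ ⟨c σ, hIl σ σ.2⟩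
  rw [← map_nsmul, ← map_sub]
  refine congrArg φ (Subtype.ext (Subtype.ext ?_))
  show (g σ : JZero p) = cycNat l r F • (c σ' : JZero p) - (c σ : JZero p)
  rw [hg σ σ.2]
  congr 1
  have hFc : F • c σ' = c σ + (σ : GQ) • c F - c F := by
    have h1 : c (F * (σ' : GQ)) = c F + F • c σ' := hc F σ'
    have h2 : F * (σ' : GQ) = (σ : GQ) * F := by
      show F * (F⁻¹ * (σ : GQ) * F) = _
      rw [← mul_assoc, ← mul_assoc, mul_inv_cancel, one_mul]
    rw [h2, hc] at h1
    rw [h1, add_sub_cancel_left]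
  have hFc' : F • (c σ' : JZero p) = (c σ : JZero p) + ((σ : GQ) • (c F : JZero p) - c F) := by
    have h1 := congrArg Subtype.val hFc
    rw [add_sub_assoc] at h1
    exact h1
  rw [← hFc', unitRoot_frob hlp hA D hUV (c σ').2 (hIl σ' σ'.2)]

/-- Coboundaries times `U² - 1` give unit characters. -/
theorem unitValued_coboundary_sq (hlp : ¬ l ∣ p) (hA : A.LiesOverPrime l) {r : ℕ} {U V : HeckeAlg}
    (hUV : ∀ x ∈ eisPart p l (D.e r) r, hact p V (hact p U x) = x ∧
      hact p (heckeGen ⟨l, Fact.out⟩) x = hact p U x + l • hact p V x)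
    (b : eisPart p l (D.e r) r) :
    UnitValued D r fun σ => eisRestrict (U ^ 2 - 1) (σ • b - b) := by
  intro φ h
  set F := D.frob
  have hg0 : F • (b : JZero p) - hact p U (b : JZero p) ∈ redKer A p :=
    frob_sub_mem_redKer hlp hA D hUV b.2
  set g : eisPart p l (D.e r) r := F • b - eisRestrict U b
  have hgred : g ∈ eisRedKer (p := p) (l := l) A (D.e r) r := hg0
  have hgU : eisRestrict U g ∈ eisRedKer (p := p) (l := l) A (D.e r) r :=
    hact_mem_redKer hl.out hlp hA U hgred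
  set a := φ ⟨eisRestrict U g, hgU⟩
  have ha : l ^ r • a = 0 := by
    rw [← map_nsmul, ← map_zero φ]
    exact congrArg φ (Subtype.ext (nsmul_eisPart _))
  obtain ⟨L, hL, hfix⟩ := exists_level_fixing (p := p) fun _ : Unit => (b : JZero p)
  have hIl : ∀ σ ∈ A.inertiaSubgroupIn ℚ, σ • b - b ∈ eisRedKer (p := p) (l := l) A (D.e r) r :=
    fun σ hσ => smul_sub_mem_redKer hl.out hlp hA hσ (b : JZero p)
  have hval : ∀ σ : A.inertiaSubgroupIn ℚ, eisRestrict U ((σ : GQ) • b - b + ((σ : GQ) •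
      (F • b - b) - (F • b - b))) - ((σ : GQ) • b - b) ∈ eisRedKer (p := p) (l := l) A (D.e r) r := by
    intro σ
    refine sub_mem (hact_mem_redKer hl.out hlp hA U ?_) (hIl σ σ.2)
    exact add_mem (smul_sub_mem_redKer hl.out hlp hA σ.2 (b : JZero p))
      (smul_sub_mem_redKer hl.out hlp hA σ.2 ((F • b - b : eisPart p l (D.e r) r) : JZero p))
  have htw := unitValued_twist (D := D) hlp hA hUV
    (c := fun σ => σ • b - b) (fun σ τ => by rw [mul_smul, smul_sub]; abel)
    ⟨L, hL, fun σ hσ => Subtype.ext (by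
      show σ • (b : JZero p) - b = 0
      rw [hfix σ hσ (), sub_self])⟩ hIl
    (g := fun σ => eisRestrict U (σ • b - b + (σ • (F • b - b) - (F • b - b))) - (σ • b - b))
    (fun σ _ => rfl) φ hval
  have hroot := root_mem_UT (A := A) (Ap := Ap) (p := p) ha
  refine mem_UT_of_eq (sub_mem htw hroot) fun σ => ?_
  show φ ⟨_, h σ⟩ = φ ⟨_, hval σ⟩ - (cycNat l r (σ : GQ) • a - a)
  rw [← map_nsmul, ← map_sub, ← map_sub]
  refine congrArg φ (Subtype.ext (Subtype.ext ?_))
  show hact p (U ^ 2 - 1) ((σ : GQ) • (b : JZero p) - b) =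
    hact p U ((σ : GQ) • (b : JZero p) - b + ((σ : GQ) • (F • (b : JZero p) - b) -
      (F • (b : JZero p) - b))) - ((σ : GQ) • (b : JZero p) - b) -
    (cycNat l r (σ : GQ) • hact p U (F • (b : JZero p) - hact p U (b : JZero p)) -
      hact p U (F • (b : JZero p) - hact p U (b : JZero p)))
  have hσ := D.inertia_G0 r σ σ.2 _ (eisRestrict U g).2 hgU
  change (σ : GQ) • hact p U (F • (b : JZero p) - hact p U (b : JZero p)) =
    cycNat l r (σ : GQ) • hact p U (F • (b : JZero p) - hact p U (b : JZero p)) at hσ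
  rw [← hσ, sq, map_sub (hact p), map_mul, map_one, LinearMap.sub_apply, Module.End.mul_apply,
    Module.End.one_apply]
  simp only [smul_sub, map_sub, map_add, galois_smul_hact]
  abel

omit hp in
/-- The gap element is a multiple of `U² - 1`. -/
theorem exists_factor {r : ℕ} {U V : HeckeAlg}
    (hUV : ∀ x ∈ eisPart p l (D.e r) r, hact p V (hact p U x) = x ∧
      hact p (heckeGen ⟨l, Fact.out⟩) x = hact p U x + l • hact p V x) (s : HeckeAlg) :
    ∃ W : HeckeAlg, ∀ x ∈ eisPart p l (D.e r) r,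
      hact p (s * ((((l : HeckeAlg) + 1) ^ 2) - heckeGen ⟨l, Fact.out⟩ ^ 2)) x =
        hact p W (hact p (U ^ 2 - 1) x) := by
  set a := eisAnn p l (D.e r) r
  let mk := Ideal.Quotient.mk a
  set W := -(s * V ^ 2 * (U ^ 2 - (l : HeckeAlg) ^ 2))
  have h1 : mk V * mk U = 1 := by
    rw [← map_mul, ← map_one mk]
    refine Ideal.Quotient.eq.2 fun x hx => ?_
    rw [map_sub, map_mul, map_one, LinearMap.sub_apply, Module.End.mul_apply, Module.End.one_apply,
      (hUV x hx).1, sub_self]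
  have h2 : mk (heckeGen ⟨l, Fact.out⟩) = mk U + (l : HeckeAlg ⧸ a) * mk V := by
    rw [← map_natCast mk, ← map_mul, ← map_add]
    refine Ideal.Quotient.eq.2 fun x hx => ?_
    rw [map_sub, map_add, map_mul, map_natCast, LinearMap.sub_apply, LinearMap.add_apply,
      Module.End.mul_apply, Module.End.natCast_apply, (hUV x hx).2, sub_self]
  have h3 : mk (s * ((((l : HeckeAlg) + 1) ^ 2) - heckeGen ⟨l, Fact.out⟩ ^ 2)) =
      mk (W * (U ^ 2 - 1)) := by
    simp only [W, map_mul, map_sub, map_pow, map_add, map_natCast, map_one, map_neg, h2]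
    linear_combination (mk s * (-2 * (l : HeckeAlg ⧸ a) +
      (mk V * mk U + 1) * (mk U ^ 2 - 1 - (l : HeckeAlg ⧸ a) ^ 2))) * h1
  refine ⟨W, fun x hx => ?_⟩
  have h4 := (Ideal.Quotient.eq.1 h3) x hx
  rwa [map_sub, LinearMap.sub_apply, sub_eq_zero, map_mul (hact p) W, Module.End.mul_apply] at h4

/-- The inclusion of the traces of a subgroup on two nested subgroups. -/
def traceIncl {G : Type*} [AddCommGroup G] {S S' : AddSubgroup G} (h : S ≤ S') (R : AddSubgroup G) :
    R.addSubgroupOf S →+ R.addSubgroupOf S' :=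
  AddMonoidHom.mk' (fun z => ⟨AddSubgroup.inclusion h z.1, z.2⟩) fun _ _ => rfl

theorem traceIncl_injective {G : Type*} [AddCommGroup G] {S S' : AddSubgroup G} (h : S ≤ S')
    (R : AddSubgroup G) : Function.Injective (traceIncl h R) := fun _ _ e =>
  Subtype.ext (AddSubgroup.inclusion_injective h (congrArg Subtype.val e))

omit hp in
/-- From level `r + k` with the bound to level `r`. -/
theorem unitValued_descend {r k d : ℕ} (hd : Nat.Coprime d l) {g : GQ → eisPart p l (D.e r) r}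
    {g' : GQ → eisPart p l (D.e (r + k)) (r + k)}
    (hg' : ∀ σ : A.inertiaSubgroupIn ℚ,
      (l ^ k * d) • g' σ ∈ eisRedKer (p := p) (l := l) A (D.e (r + k)) (r + k))
    (hrel : ∀ σ ∈ A.inertiaSubgroupIn ℚ, l ^ k • (g' σ : JZero p) = (g σ : JZero p))
    (h : UnitValued D (r + k) fun σ => (l ^ k * d) • g' σ) : UnitValued D r g := by
  intro φ hmem
  have hle : eisPart p l (D.e r) r ≤ eisPart p l (D.e (r + k)) (r + k) := fun x hx =>
    ⟨by rw [add_comm, pow_add, mul_nsmul', hx.1, nsmul_zero],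
      by rw [e_succ_iterate D r k hx.1, hx.2]⟩
  let ι : eisRedKer (p := p) (l := l) A (D.e r) r →+
      eisRedKer (p := p) (l := l) A (D.e (r + k)) (r + k) := traceIncl hle (redKer A p)
  have hι : Function.Injective ι := traceIncl_injective hle (redKer A p)
  obtain ⟨ψ, hψ⟩ := exists_extend ι hι φ
  obtain ⟨e, he⟩ : ∃ e : ℕ, ((e * d : ℕ) : ZMod (l ^ r)) = 1 := by
    obtain ⟨u, hu⟩ := (ZMod.isUnit_iff_coprime d (l ^ r)).2 (hd.pow_right r)
    refine ⟨((u⁻¹ : (ZMod (l ^ r))ˣ) : ZMod (l ^ r)).val, ?_⟩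
    rw [Nat.cast_mul, ZMod.natCast_zmod_val, ← hu, Units.inv_mul]
  have h1 := AddSubgroup.nsmul_mem _ (h ψ hg') e
  refine mem_UT_of_eq h1 fun σ => ?_
  show φ ⟨g σ, hmem σ⟩ = e • ψ ⟨_, hg' σ⟩
  rw [← map_nsmul, ← hψ]
  refine congrArg ψ (Subtype.ext (Subtype.ext ?_))
  show ((g σ : JZero p)) = e • ((l ^ k * d) • (g' σ : JZero p))
  rw [← mul_nsmul', ← mul_assoc, mul_comm e, mul_assoc, mul_comm (l ^ k), mul_nsmul' _ (e * d),
    hrel σ σ.2]
  have hmod : e * d % l ^ r = 1 % l ^ r := by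
    have h := he
    rw [← Nat.cast_one, ZMod.natCast_eq_natCast_iff'] at h
    exact h
  conv_lhs => rw [← one_nsmul (g σ : JZero p)]
  rw [← Nat.mod_add_div 1 (l ^ r), ← Nat.mod_add_div (e * d) (l ^ r), hmod, add_nsmul, add_nsmul,
    mul_nsmul, mul_nsmul, (g σ).2.1, nsmul_zero, nsmul_zero]

/-- The coboundaries of the component give unit characters. -/
theorem unitValued_coboundary (hlp : ¬ l ∣ p) (hA : A.LiesOverPrime l) (D : LocalData p l A Ap)
    (r : ℕ) (b : eisPart p l (D.e r) r) : UnitValued D r fun σ => σ • b - b := by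
  obtain ⟨D₀, s, hD₀, hgap⟩ := D.ordinary_gap
  obtain ⟨k, d, hd, hfac⟩ := Nat.exists_eq_pow_mul_and_not_dvd hD₀ l hl.out.one_lt.ne'
  obtain ⟨y, hy⟩ := MW.exists_nsmul_eq_jZero (torsionModel p) (pow_pos hl.out.pos k) (b : JZero p)
  have hy0 : l ^ (r + k) • y = 0 := by rw [pow_add, mul_nsmul', hy, b.2.1]
  let b' : eisPart p l (D.e (r + k)) (r + k) :=
    ⟨hact p (D.e (r + k)) y, by rw [← map_nsmul, hy0, map_zero], D.e_idem _ _ hy0⟩
  have hb : l ^ k • (b' : JZero p) = b := by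
    show l ^ k • hact p (D.e (r + k)) y = b
    rw [← map_nsmul, hy, e_succ_iterate D r k b.2.1, b.2.2]
  obtain ⟨U, V, hUV⟩ := exists_unitRoot D (r + k)
  obtain ⟨W, hW⟩ := exists_factor (D := D) hUV s
  have hsq := unitValued_coboundary_sq (D := D) hlp hA hUV b'
  refine unitValued_descend (D := D) (k := k) (d := d) (g' := fun σ => σ • b' - b')
    ((hl.out.coprime_iff_not_dvd.2 hd).symm) (fun σ => ?_) (fun σ _ => ?_) ?_
  · exact nsmul_mem (smul_sub_mem_redKer hl.out hlp hA σ.2 (b' : JZero p)) _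
  · show l ^ k • (σ • (b' : JZero p) - b') = σ • (b : JZero p) - b
    rw [nsmul_sub, ← galois_nsmul, hb]
  · refine hsq.comp_redOp hlp hA (fun σ => hact_mem_redKer hl.out hlp hA _
      (smul_sub_mem_redKer hl.out hlp hA σ.2 (b' : JZero p))) W fun σ _ => ?_
    show (l ^ k * d) • (σ • (b' : JZero p) - b') = hact p W (hact p (U ^ 2 - 1) (σ • (b' : JZero p) - b'))
    rw [← hfac]
    exact (hgap _ _ (σ • b' - b').2).trans (hW _ (σ • b' - b').2)

/-- **Admissibility at the place over `l`.** -/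
theorem localAdmissible (hlp : ¬ l ∣ p) (hA : A.LiesOverPrime l) (D : LocalData p l A Ap) :
    LocalAdmissible D := by
  refine ⟨fun r => ⟨fun σ hσ b => smul_sub_mem_redKer hl.out hlp hA hσ (b : JZero p),
    fun b φ => unitValued_coboundary hlp hA D r b φ _⟩, fun r c x y hx hy hc => ?_⟩
  have hIl : ∀ (n : ℕ) (z : JZero p), ∀ σ ∈ A.inertiaSubgroupIn ℚ,
      hact p (D.e n) (σ • z - z) ∈ redKer A p := fun n z σ hσ =>
    hact_mem_redKer hl.out hlp hA _ (smul_sub_mem_redKer hl.out hlp hA hσ z)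
  refine ⟨fun σ hσ => by rw [mem_eisRedKer, hc]; exact hIl r y σ hσ, ?_⟩
  obtain ⟨D₀, s, hD₀, hgap⟩ := D.ordinary_gap
  obtain ⟨k, d, hd, hfac⟩ := Nat.exists_eq_pow_mul_and_not_dvd hD₀ l hl.out.one_lt.ne'
  obtain ⟨y', hy'⟩ := MW.exists_nsmul_eq_jZero (torsionModel p) (pow_pos hl.out.pos k) y
  have hk0 : ∀ σ : GQ, l ^ (r + k) • (σ • y' - y') = 0 := fun σ => by
    rw [pow_add, mul_nsmul', nsmul_sub, ← galois_nsmul σ (l ^ k), hy',
      nsmul_sub, ← galois_nsmul, hy, hx, sub_self]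
  let c' : GQ → eisPart p l (D.e (r + k)) (r + k) := fun σ =>
    ⟨hact p (D.e (r + k)) (σ • y' - y'), by rw [← map_nsmul, hk0, map_zero],
      D.e_idem _ _ (hk0 σ)⟩
  have hc' : ∀ σ τ, c' (σ * τ) = c' σ + σ • c' τ := fun σ τ => Subtype.ext (by
    show hact p (D.e (r + k)) ((σ * τ) • y' - y') =
      hact p (D.e (r + k)) (σ • y' - y') + σ • hact p (D.e (r + k)) (τ • y' - y')
    rw [galois_smul_hact, ← map_add, smul_sub, mul_smul]
    congr 1
    abel)
  have hIl' : ∀ σ ∈ A.inertiaSubgroupIn ℚ,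
      c' σ ∈ eisRedKer (p := p) (l := l) A (D.e (r + k)) (r + k) := hIl (r + k) y'
  obtain ⟨U, V, hUV⟩ := exists_unitRoot D (r + k)
  obtain ⟨W, hW⟩ := exists_factor (D := D) hUV s
  obtain ⟨L, hL, hfix⟩ := exists_level_fixing (p := p) fun _ : Unit => y'
  set e := c' D.frob
  have he : ∀ σ : A.inertiaSubgroupIn ℚ,
      (σ : GQ) • e - e ∈ eisRedKer (p := p) (l := l) A (D.e (r + k)) (r + k) :=
    fun σ => smul_sub_mem_redKer hl.out hlp hA σ.2 (e : JZero p)
  have hU1 : UnitValued D (r + k) fun σ => eisRestrict (U - 1) (c' σ) := by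
    intro φ h
    have hval : ∀ σ : A.inertiaSubgroupIn ℚ, eisRestrict U (c' σ + ((σ : GQ) • e - e)) - c' σ ∈
        eisRedKer (p := p) (l := l) A (D.e (r + k)) (r + k) := fun σ =>
      sub_mem (hact_mem_redKer hl.out hlp hA U (add_mem (hIl' σ σ.2) (he σ))) (hIl' σ σ.2)
    have htw := unitValued_twist (D := D) hlp hA hUV hc'
      ⟨L, hL, fun σ hσ => Subtype.ext (by
        show hact p (D.e (r + k)) (σ • y' - y') = 0
        rw [hfix σ hσ (), sub_self, map_zero])⟩ hIl'
      (g := fun σ => eisRestrict U (c' σ + (σ • e - e)) - c' σ) (fun σ _ => rfl) φ hval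
    have hco : UnitValued D (r + k) fun σ => eisRestrict U (σ • e - e) :=
      (unitValued_coboundary hlp hA D (r + k) e).comp_redOp hlp hA he U fun σ _ => rfl
    have hcoval : ∀ σ : A.inertiaSubgroupIn ℚ,
        eisRestrict U ((σ : GQ) • e - e) ∈ eisRedKer (p := p) (l := l) A (D.e (r + k)) (r + k) :=
      fun σ => hact_mem_redKer hl.out hlp hA U (he σ)
    refine mem_UT_of_eq (sub_mem htw (hco φ hcoval)) fun σ => ?_
    show φ ⟨_, h σ⟩ = φ ⟨_, hval σ⟩ - φ ⟨_, hcoval σ⟩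
    rw [← map_sub]
    refine congrArg φ (Subtype.ext (Subtype.ext ?_))
    show hact p (U - 1) (c' σ : JZero p) =
      hact p U ((c' σ : JZero p) + ((σ : GQ) • (e : JZero p) - e)) - (c' σ : JZero p) -
        hact p U ((σ : GQ) • (e : JZero p) - e)
    rw [map_sub (hact p), map_one, LinearMap.sub_apply, Module.End.one_apply, map_add]
    abel
  refine unitValued_descend (D := D) (k := k) (d := d) (g' := c')
    ((hl.out.coprime_iff_not_dvd.2 hd).symm) (fun σ => nsmul_mem (hIl' σ σ.2) _) (fun σ _ => ?_) ?_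
  · show l ^ k • hact p (D.e (r + k)) (σ • y' - y') = _
    have h0 : l ^ r • (σ • y - y) = 0 := by rw [nsmul_sub, ← galois_nsmul, hy, hx, sub_self]
    rw [← map_nsmul, nsmul_sub, ← galois_nsmul, hy', e_succ_iterate D r k h0, hc]
  · refine hU1.comp_redOp hlp hA (fun σ => hact_mem_redKer hl.out hlp hA _ (hIl' σ σ.2))
      (W * (U + 1)) fun σ _ => ?_
    show (l ^ k * d) • (c' σ : JZero p) = hact p (W * (U + 1)) (hact p (U - 1) (c' σ : JZero p))
    rw [← Module.End.mul_apply, ← map_mul, mul_assoc W, show (U + 1) * (U - 1) = U ^ 2 - 1 by ring, map_mul,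
      Module.End.mul_apply, ← hW _ (c' σ).2, ← hfac]
    exact hgap _ _ (c' σ).2

end FermatAgent.Mazur.Descent

end
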