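import Fermat.Agent.Mazur.Descent.Assembly.EisModule
import Mathlib.Dynamics.Newton

/-!
# The unit root of Frobenius on the component

An element `U` of the Hecke algebra with `U² - T U + l = 0` on a level of the component, with
inverse `V`; the Frobenius element is `U` modulo the classes reducing to zero and `χ V` on them.
-/

set_option autoImplicit false

noncomputable section

namespace FermatAgent.Mazur.Descent

open ModularCurve FermatAgent.GalRep FermatAgent.ModCurveTorsion Polynomial

local notation "Qb" => AlgebraicClosure ℚ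
local notation "GQ" => AlgebraicClosure ℚ ≃ₐ[ℚ] AlgebraicClosure ℚ

variable {p l : ℕ} [NeZero p]

/-- The Hecke elements killing a level of the component. -/
def eisAnn (p l : ℕ) [NeZero p] (e : HeckeAlg) (r : ℕ) : Ideal HeckeAlg where
  carrier := {t | ∀ x ∈ eisPart p l e r, hact p t x = 0}
  zero_mem' x _ := by rw [map_zero]; rfl
  add_mem' {s t} hs ht x hx := by
    rw [map_add, LinearMap.add_apply, hs x hx, ht x hx, add_zero]
  smul_mem' c {t} ht x hx := by
    rw [smul_eq_mul, map_mul, Module.End.mul_apply, ht x hx, map_zero]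

variable [hl : Fact l.Prime] {A Ap : ValuationSubring Qb}

/-- The unit root of `X² - T X + l` on a level of the component. -/
theorem exists_unitRoot (D : LocalData p l A Ap) (r : ℕ) :
    ∃ U V : HeckeAlg, ∀ x ∈ eisPart p l (D.e r) r,
      hact p V (hact p U x) = x ∧
      hact p (heckeGen ⟨l, Fact.out⟩) x = hact p U x + l • hact p V x := by
  set a := eisAnn p l (D.e r) r
  let mk := Ideal.Quotient.mk a
  set t := mk (heckeGen ⟨l, Fact.out⟩)
  have hT : IsNilpotent (t - 1) := by
    obtain ⟨n, hn⟩ := D.heckeEll_nilpotent r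
    refine ⟨n, ?_⟩
    rw [← map_one mk, ← map_sub, ← map_pow]
    refine Ideal.Quotient.eq_zero_iff_mem.2 fun x hx => ?_
    rw [map_pow, map_sub, map_one]
    exact hn x hx
  have hl' : IsNilpotent (l : HeckeAlg ⧸ a) := by
    refine ⟨r, ?_⟩
    rw [← map_natCast mk, ← map_pow]
    refine Ideal.Quotient.eq_zero_iff_mem.2 fun x hx => ?_
    rw [map_pow, map_natCast, ← Nat.cast_pow, Module.End.natCast_apply]
    exact hx.1
  set P : Polynomial (HeckeAlg ⧸ a) := X ^ 2 - C t * X + C (l : HeckeAlg ⧸ a)
  have h0 : IsNilpotent (Polynomial.aeval (1 : HeckeAlg ⧸ a) P) := by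
    have he : Polynomial.aeval (1 : HeckeAlg ⧸ a) P = -(t - 1) + (l : HeckeAlg ⧸ a) := by
      simp [P]
    rw [he]
    exact Commute.isNilpotent_add (Commute.all _ _) hT.neg hl'
  have h1 : IsUnit (Polynomial.aeval (1 : HeckeAlg ⧸ a) (derivative P)) := by
    have he : Polynomial.aeval (1 : HeckeAlg ⧸ a) (derivative P) = 1 + -(t - 1) := by
      simp [P, derivative_pow]
      ring
    rw [he]
    exact hT.neg.isUnit_one_add
  obtain ⟨u, ⟨hu, hPu⟩, -⟩ := Polynomial.existsUnique_nilpotent_sub_and_aeval_eq_zero h0 h1
  have hunit : IsUnit u := by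
    have h := hu.neg.isUnit_one_add
    rwa [neg_sub, add_sub_cancel] at h
  obtain ⟨w, hw⟩ := hunit.exists_left_inv
  obtain ⟨U, rfl⟩ := Ideal.Quotient.mk_surjective u
  obtain ⟨V, rfl⟩ := Ideal.Quotient.mk_surjective w
  refine ⟨U, V, fun x hx => ⟨?_, ?_⟩⟩
  · have h : V * U - 1 ∈ a := Ideal.Quotient.eq_zero_iff_mem.1 (by
      rw [map_sub, map_mul, map_one]; exact sub_eq_zero.2 hw)
    have h2 := h x hx
    rwa [map_sub, map_mul, map_one, LinearMap.sub_apply, Module.End.mul_apply, Module.End.one_apply,
      sub_eq_zero] at h2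
  · have hP0 : mk U * mk U - t * mk U + (l : HeckeAlg ⧸ a) = 0 := by
      have h := hPu
      simp only [P, map_add, map_sub, map_mul, map_pow, aeval_X, aeval_C, Algebra.algebraMap_self,
        RingHom.id_apply] at h
      rwa [sq] at h
    have h : heckeGen ⟨l, Fact.out⟩ - U - (l : HeckeAlg) * V ∈ a :=
      Ideal.Quotient.eq_zero_iff_mem.1 (by
        rw [map_sub, map_sub, map_mul, map_natCast]
        linear_combination (-mk V) * hP0 + (mk U - t) * hw)
    have h2 := h x hx
    rw [map_sub, map_sub, map_mul, map_natCast, LinearMap.sub_apply, LinearMap.sub_apply,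
      Module.End.mul_apply, Module.End.natCast_apply, sub_sub, sub_eq_zero] at h2
    exact h2

variable [hp : Fact p.Prime]

/-- Frobenius is the unit root modulo the classes reducing to zero. -/
theorem frob_sub_mem_redKer (hlp : ¬ l ∣ p) (hA : A.LiesOverPrime l) (D : LocalData p l A Ap)
    {r : ℕ} {U V : HeckeAlg} (hUV : ∀ x ∈ eisPart p l (D.e r) r,
      hact p V (hact p U x) = x ∧
      hact p (heckeGen ⟨l, Fact.out⟩) x = hact p U x + l • hact p V x)
    {x : JZero p} (hx : x ∈ eisPart p l (D.e r) r) : D.frob • x - hact p U x ∈ redKer A p := by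
  set F := D.frob
  set G := eisPart p l (D.e r) r
  have hU : ∀ z ∈ G, hact p U z ∈ G := fun z hz =>
    (eisRestrict U ⟨z, hz⟩).2
  have hV : ∀ z ∈ G, hact p V z ∈ G := fun z hz =>
    (eisRestrict V ⟨z, hz⟩).2
  have hdec : F⁻¹ ∈ A.decompositionSubgroup ℚ := inv_mem D.isFrob.mem_decompositionSubgroup
  set y := F • x - hact p U x
  have hy : y ∈ G := sub_mem (smul_mem_eisPart F hx) (hU x hx)
  have hstep : F • y - l • hact p V y ∈ redKer A p := by
    have h := frob_quadratic_mem hl.out hlp hA D.isFrob x
    have hTy : l • hact p V y = hact p (heckeGen ⟨l, Fact.out⟩) y - hact p U y := by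
      rw [(hUV y hy).2, add_sub_cancel_left]
    convert h using 1
    rw [hTy]
    simp only [y, map_sub, smul_sub, galois_smul_hact]
    have hc : ∀ s t : HeckeAlg, ∀ z : JZero p, hact p s (hact p t z) = hact p t (hact p s z) := by
      intro s t z
      rw [← Module.End.mul_apply, ← map_mul, mul_comm, map_mul, Module.End.mul_apply]
    rw [hc (heckeGen ⟨l, Fact.out⟩) U, (hUV x hx).2, map_add, map_nsmul, hc U V, (hUV x hx).1]
    abel
  set g : JZero p → JZero p := fun z => hact p V (F⁻¹ • z)
  have hg : ∀ z, z ∈ redKer A p → g z ∈ redKer A p := fun z hz =>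
    hact_mem_redKer hl.out hlp hA V (smul_mem_redKer hl.out hlp hA hdec hz)
  have hy1 : y - l • g y ∈ redKer A p := by
    have h2 := smul_mem_redKer hl.out hlp hA hdec hstep
    rwa [smul_sub, inv_smul_smul, galois_nsmul, galois_smul_hact] at h2
  have hyn : ∀ n, y - l ^ n • (g^[n] y) ∈ redKer A p := by
    intro n
    induction n with
    | zero => rw [pow_zero, one_nsmul, Function.iterate_zero, id, sub_self]; exact zero_mem _
    | succ n ih =>
      have hgn : ∀ m (z : JZero p), g^[m] (l • z) = l • g^[m] z := by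
        intro m
        induction m with
        | zero => intro z; rfl
        | succ m ihm =>
          intro z
          rw [Function.iterate_succ_apply, Function.iterate_succ_apply, ← ihm]
          congr 1
          show hact p V (F⁻¹ • (l • z)) = l • hact p V (F⁻¹ • z)
          rw [galois_nsmul, map_nsmul]
      have hgsub : ∀ m (z z' : JZero p), g^[m] (z - z') = g^[m] z - g^[m] z' := by
        intro m
        induction m with
        | zero => intro z z'; rfl
        | succ m ihm =>
          intro z z'
          rw [Function.iterate_succ_apply, Function.iterate_succ_apply, Function.iterate_succ_apply,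
            ← ihm]
          congr 1
          show hact p V (F⁻¹ • (z - z')) = hact p V (F⁻¹ • z) - hact p V (F⁻¹ • z')
          rw [smul_sub, map_sub]
      have hred : ∀ m z, z ∈ redKer A p → g^[m] z ∈ redKer A p := by
        intro m
        induction m with
        | zero => intro z hz; exact hz
        | succ m ihm =>
          intro z hz
          rw [Function.iterate_succ_apply]
          exact ihm _ (hg z hz)
      have h3 := nsmul_mem (hred n _ hy1) (l ^ n)
      rw [hgsub, hgn, nsmul_sub, ← mul_nsmul', ← pow_succ, ← Function.iterate_succ_apply] at h3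
      have h4 := add_mem ih h3
      rwa [sub_add_sub_cancel] at h4
  have h := hyn r
  have hgG : ∀ m, g^[m] y ∈ G := by
    intro m
    induction m with
    | zero => exact hy
    | succ m ihm =>
      rw [Function.iterate_succ_apply']
      exact hV _ (smul_mem_eisPart F⁻¹ ihm)
  rwa [(hgG r).1, sub_zero] at h

omit hp in
/-- On the classes reducing to zero, `U` times Frobenius is `χ`. -/
theorem unitRoot_frob (_hlp : ¬ l ∣ p) (_hA : A.LiesOverPrime l) (D : LocalData p l A Ap)
    {r : ℕ} {U V : HeckeAlg} (hUV : ∀ x ∈ eisPart p l (D.e r) r,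
      hact p V (hact p U x) = x ∧
      hact p (heckeGen ⟨l, Fact.out⟩) x = hact p U x + l • hact p V x)
    {z : JZero p} (hz : z ∈ eisPart p l (D.e r) r) (hzred : z ∈ redKer A p) :
    hact p U (D.frob • z) = cycNat l r D.frob • z := by
  set F := D.frob
  set G := eisPart p l (D.e r) r
  set χ := cycNat l r F
  have hc : ∀ s t : HeckeAlg, ∀ z : JZero p, hact p s (hact p t z) = hact p t (hact p s z) := by
    intro s t z
    rw [← Module.End.mul_apply, ← map_mul, mul_comm, map_mul, Module.End.mul_apply]
  have hU : ∀ z ∈ G, hact p U z ∈ G := fun z hz => (eisRestrict U ⟨z, hz⟩).2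
  have hV : ∀ z ∈ G, hact p V z ∈ G := fun z hz => (eisRestrict V ⟨z, hz⟩).2
  set w := hact p U (F • z) - χ • z
  have hFz : F • z ∈ G := smul_mem_eisPart F hz
  have hwG : w ∈ G := sub_mem (hU _ hFz) (nsmul_mem hz _)
  have hwF : ∀ k : ℕ, χ ^ k • w = l ^ k • ((fun v => hact p V (F • v))^[k] w) := by
    have hkey : χ • w = l • hact p V (F • w) := by
      have h0 := D.frob_G0 r z hz hzred
      have hFFz : F • F • z ∈ G := smul_mem_eisPart F hFz
      rw [(hUV _ hFz).2, nsmul_add, ← mul_nsmul' (hact p V (F • z)) χ l] at h0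
      simp only [w, smul_sub, galois_smul_hact, map_sub, galois_nsmul, map_nsmul, nsmul_sub]
      rw [(hUV _ hFFz).1, ← mul_nsmul' z χ χ, ← sq, ← mul_nsmul' (hact p V (F • z)) l χ, mul_comm l χ]
      rw [← sub_eq_zero, ← neg_eq_zero]
      rw [← h0]
      abel
    have hit : ∀ m (c : ℕ) (v : JZero p), (fun v => hact p V (F • v))^[m] (c • v) =
        c • (fun v => hact p V (F • v))^[m] v := by
      intro m
      induction m with
      | zero => intro c v; rfl
      | succ m ihm =>
        intro c v
        rw [Function.iterate_succ_apply, Function.iterate_succ_apply, ← ihm]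
        congr 1
        show hact p V (F • (c • v)) = c • hact p V (F • v)
        rw [galois_nsmul, map_nsmul]
    intro k
    induction k with
    | zero => rfl
    | succ k ih =>
      rw [pow_succ', mul_nsmul' w χ, ih, ← mul_nsmul', mul_comm χ, mul_nsmul', ← hit, hkey, hit,
        ← mul_nsmul', ← pow_succ, ← Function.iterate_succ_apply]
  have hiter : ∀ k, (fun v => hact p V (F • v))^[k] w ∈ G := by
    intro k
    induction k with
    | zero => exact hwG
    | succ k ih =>
      rw [Function.iterate_succ_apply']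
      exact hV _ (smul_mem_eisPart F ih)
  have h0 : χ ^ r • w = 0 := by rw [hwF r]; exact (hiter r).1
  rcases Nat.eq_zero_or_pos r with rfl | hr
  · have h1 := hz.1
    rw [pow_zero, one_nsmul] at h1
    rw [h1, galois_map_zero, map_zero, nsmul_zero]
  have hχ : Nat.Coprime χ (l ^ r) := by
    refine (ZMod.isUnit_iff_coprime χ (l ^ r)).1 ?_
    show IsUnit ((((PadicInt.toZModPow r (cycChar l F)).val : ℕ) : ZMod (l ^ r)))
    rw [ZMod.natCast_zmod_val]
    refine IsUnit.of_mul_eq_one (PadicInt.toZModPow r (cycChar l F⁻¹)) ?_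
    rw [← map_mul, ← map_mul, mul_inv_cancel, map_one, map_one]
  have hco : Nat.Coprime (χ ^ r) (l ^ r) := hχ.pow_left r
  have hd : addOrderOf w ∣ Nat.gcd (χ ^ r) (l ^ r) := Nat.dvd_gcd
    (addOrderOf_dvd_of_nsmul_eq_zero h0) (addOrderOf_dvd_of_nsmul_eq_zero hwG.1)
  rw [hco, Nat.dvd_one, AddMonoid.addOrderOf_eq_one_iff] at hd
  exact sub_eq_zero.1 hd

end FermatAgent.Mazur.Descent

end
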